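import Fermat.Agent.S14.Defs

/-!
# S14, block (T1): the two contracts of the block, as `Prop`s

`FiniteLevelStatement p` is the statement `finiteLevel` of the top-level plan (for fields in
`Type`), `SelStatement p` is the statement `sel`.  Stating them as `Prop`s lets every file of
the block be free of holes.
-/

set_option autoImplicit false

namespace Fermat.Agent.S14

open NumberField ExtCitation

/-- The statement `finiteLevel` of the plan, for fields in `Type`. -/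
def FiniteLevelStatement (p : ℕ) [Fact p.Prime] : Prop :=
  ∀ (E : Type) [Field E] [NumberField E] [IsGalois ℚ E]
    (ζ β : 𝓞 E) (_hζ : IsPrimitiveRoot ζ p) (_hβ0 : β ≠ 0)
    (_hfaith : ∀ τ : E ≃ₐ[ℚ] E, sigO τ ζ = ζ → sigO τ β = β → τ = 1)
    (_hkum : ∀ τ : E ≃ₐ[ℚ] E, sigO τ ζ = ζ → ∃ j : ℕ, sigO τ β = ζ ^ j * β)
    (_htype : ∀ (σ τ : E ≃ₐ[ℚ] E) (n : ℕ), sigO σ ζ = ζ ^ n → sigO τ ζ = ζ →
      τ (σ (β : E) / (β : E) ^ (n ^ 2)) = σ (β : E) / (β : E) ^ (n ^ 2))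
    (_hunr : ∀ P : Ideal (𝓞 E), P.IsPrime → (p : 𝓞 E) ∉ P → ∀ τ : E ≃ₐ[ℚ] E,
      (∀ x : 𝓞 E, sigO τ x - x ∈ P) → sigO τ β = β)
    (_hsplit : ∃ P : Ideal (𝓞 E), P.IsPrime ∧ (p : 𝓞 E) ∈ P ∧ ∀ τ : E ≃ₐ[ℚ] E,
      (∀ x : 𝓞 E, x ∈ P ↔ sigO τ x ∈ P) → sigO τ ζ = ζ → sigO τ β = β),
    ∀ τ : E ≃ₐ[ℚ] E, sigO τ ζ = ζ → sigO τ β = β

/-- The statement `sel` of the plan. -/
def SelStatement (p : ℕ) [Fact p.Prime] : Prop :=
  ∀ (b : GQ → ZMod p)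
    (_hcoc : ∀ σ τ : GQ, b (σ * τ) = ((cycloChar p τ : (ZMod p)ˣ) : ZMod p) * b σ + b τ)
    (_hopen : IsOpen {σ : GQ | cycloChar p σ = 1 ∧ b σ = 0})
    (_hunr : ∀ ℓ : ℕ, ℓ.Prime → ℓ ≠ p → ∀ A : ValuationSubring (AlgebraicClosure ℚ),
      A.LiesOverPrime ℓ → ∀ σ ∈ A.inertiaSubgroupIn ℚ, cycloChar p σ = 1 ∧ b σ = 0)
    (_hsplit : ∀ A : ValuationSubring (AlgebraicClosure ℚ), A.LiesOverPrime p →
      ∀ σ ∈ A.decompositionSubgroup ℚ, cycloChar p σ = 1 → b σ = 0),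
    ∀ σ : GQ, cycloChar p σ = 1 → b σ = 0

end Fermat.Agent.S14
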