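import Fermat.Agent.S13.Minkowski
import Fermat.Agent.S14.T1.Contracts

/-!
# S14, block (T1-B2): lifting inertia and decomposition from `Gal(E/ℚ)` to `Gal(ℚ̄/ℚ)`
-/

set_option autoImplicit false

namespace Fermat.Agent.S14

open NumberField ExtCitation
open scoped Pointwise

local notation "Qbar" => AlgebraicClosure ℚ

namespace DictB

open Fermat.Agent.Lib.FrobeniusExists Fermat.Agent.S13.Mink

variable {Ω : Type*} [Field Ω] [Algebra ℚ Ω]

attribute [local instance] galAction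

theorem mul_apply_of_normal (H : Subgroup (Ω ≃ₐ[ℚ] Ω)) [H.Normal] (g h : Ω ≃ₐ[ℚ] Ω) (hh : h ∈ H)
    (x : Ω) (hx : ∀ k ∈ H, k x = x) : (h * g) x = g x := by
  have h1 : g⁻¹ * h * g ∈ H := by
    have := ‹H.Normal›.conj_mem h hh g⁻¹
    simpa using this
  have h2 := hx _ h1
  have h3 : (h * g) x = g ((g⁻¹ * h * g) x) := by
    change h (g x) = g (g⁻¹ (h (g x)))
    exact (AlgEquiv.apply_symm_apply g _).symm
  rw [h3, h2]

theorem mem_of_fixed [IsGalois ℚ Ω] (E : IntermediateField ℚ Ω) (x : integralClosure ℤ Ω)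
    (hx : ∀ h : E.fixingSubgroup, h • x = x) : (x : Ω) ∈ E := by
  rw [← InfiniteGalois.fixedField_fixingSubgroup E, IntermediateField.mem_fixedField_iff]
  intro f hf
  exact congrArg Subtype.val (hx ⟨f, hf⟩)

/-- generic form of `lift_inertia` -/
theorem lift_inertia_aux [IsGalois ℚ Ω] (E : IntermediateField ℚ Ω) [E.fixingSubgroup.Normal]
    (A : ValuationSubring Ω) (g : Ω ≃ₐ[ℚ] Ω)
    (hg : ∀ x : Ω, x ∈ E → IsIntegral ℤ x → g x - x ∈ A.nonunits) :
    ∃ σ ∈ A.inertiaSubgroupIn ℚ, ∀ x ∈ E, σ x = g x := by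
  have hclosed : IsClosed (E.fixingSubgroup : Set (Ω ≃ₐ[ℚ] Ω)) :=
    InfiniteGalois.fixingSubgroup_isClosed E
  have : (idealOf A).IsPrime := Ideal.comap_isPrime _ _
  obtain ⟨h, hh, hσ⟩ := exists_mul_mem_inertia E.fixingSubgroup hclosed (idealOf A) g (by
    intro x hx
    rw [mem_comap_incl_iff]
    exact hg x (mem_of_fixed E x hx) x.2)
  refine ⟨h * g, mem_inertiaSubgroupIn A _ hσ, fun x hx => ?_⟩
  exact mul_apply_of_normal E.fixingSubgroup g h hh x
    (fun k hk => (IntermediateField.mem_fixingSubgroup_iff _ _).1 hk x hx)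

/-- stabilising `idealOf A` implies being in the decomposition group of `A`. -/
theorem mem_decompositionSubgroup [IsGalois ℚ Ω] (A : ValuationSubring Ω) (σ : Ω ≃ₐ[ℚ] Ω)
    (hσQ : σ • idealOf A = idealOf A) : σ ∈ A.decompositionSubgroup ℚ := by
  rw [MulAction.mem_stabilizer_iff]
  refine le_antisymm ?_ ?_
  · intro y hy
    obtain ⟨x, hx, rfl⟩ := (ValuationSubring.mem_smul_pointwise_iff_exists _ _ _).mp hy
    exact apply_mem_of_smul_eq A σ hσQ x hx
  · rw [ValuationSubring.subset_pointwise_smul_iff]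
    intro y hy
    obtain ⟨x, hx, rfl⟩ := (ValuationSubring.mem_smul_pointwise_iff_exists _ _ _).mp hy
    exact apply_mem_of_smul_eq A σ⁻¹ (inv_smul_eq_iff.mpr hσQ.symm) x hx

/-- generic form of `lift_decomposition` -/
theorem lift_decomposition_aux [IsGalois ℚ Ω] (E : IntermediateField ℚ Ω)
    [E.fixingSubgroup.Normal] (A : ValuationSubring Ω) (g : Ω ≃ₐ[ℚ] Ω)
    (hg : ∀ x : Ω, x ∈ E → IsIntegral ℤ x → (x ∈ A.nonunits ↔ g x ∈ A.nonunits)) :
    ∃ σ ∈ A.decompositionSubgroup ℚ, ∀ x ∈ E, σ x = g x := by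
  classical
  set H : Subgroup (Ω ≃ₐ[ℚ] Ω) := E.fixingSubgroup with hHdef
  have hH : IsClosed (H : Set (Ω ≃ₐ[ℚ] Ω)) := InfiniteGalois.fixingSubgroup_isClosed E
  set Q : Ideal (integralClosure ℤ Ω) := idealOf A with hQ
  have : Q.IsPrime := Ideal.comap_isPrime _ _
  have : CompactSpace H := isCompact_iff_compactSpace.mp hH.isCompact
  let _ : TopologicalSpace (integralClosure ℤ Ω) := ⊥
  have : DiscreteTopology (integralClosure ℤ Ω) := ⟨rfl⟩
  have hcont : ContinuousSMul (Ω ≃ₐ[ℚ] Ω) (integralClosure ℤ Ω) := by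
    rw [continuousSMul_iff_stabilizer_isOpen]
    intro b
    convert stabilizer_isOpen_of_isIntegral (K := ℚ) (b : Ω) using 1
    ext g
    simp only [SetLike.mem_coe, MulAction.mem_stabilizer_iff]
    exact Subtype.ext_iff
  have : ContinuousSMul H (integralClosure ℤ Ω) := inferInstance
  have hinv : Algebra.IsInvariant (fixedAlg H) (integralClosure ℤ Ω) H :=
    ⟨fun b hb => ⟨⟨b, hb⟩, rfl⟩⟩
  have hcomm : SMulCommClass H (fixedAlg H) (integralClosure ℤ Ω) := ⟨fun h c b => by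
    change h • ((c : integralClosure ℤ Ω) * b) = (c : integralClosure ℤ Ω) * (h • b)
    rw [smul_mul', c.2 h]⟩
  have hunder : (g • Q).under (fixedAlg H) = Q.under (fixedAlg H) := by
    ext x
    simp only [Ideal.under_def, Ideal.mem_comap]
    change (x : integralClosure ℤ Ω) ∈ g • Q ↔ (x : integralClosure ℤ Ω) ∈ Q
    rw [Ideal.mem_pointwise_smul_iff_inv_smul_mem]
    have hfix := smul_fixed_of_normal H g⁻¹ x x.2
    have h1 := hg ((g⁻¹ • (x : integralClosure ℤ Ω) : integralClosure ℤ Ω) : Ω)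
      (mem_of_fixed E _ hfix) (g⁻¹ • (x : integralClosure ℤ Ω)).2
    rw [← coe_galAction_smul g, smul_inv_smul] at h1
    rw [hQ, mem_comap_incl_iff, mem_comap_incl_iff]
    exact h1
  obtain ⟨h1, hh1⟩ := Algebra.IsInvariant.exists_smul_of_under_eq_of_profinite
    (A := fixedAlg H) (G := H) (g • Q) Q hunder
  have hσ₁Q : ((h1 : Ω ≃ₐ[ℚ] Ω) * g) • Q = Q := by
    rw [mul_smul]
    exact hh1.symm
  refine ⟨(h1 : Ω ≃ₐ[ℚ] Ω) * g, mem_decompositionSubgroup A _ hσ₁Q, fun x hx => ?_⟩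
  exact mul_apply_of_normal H g h1 h1.2 x
    (fun k hk => (IntermediateField.mem_fixingSubgroup_iff _ _).1 hk x hx)

/-- every automorphism of `E` lifts (private copy) -/
theorem exists_lift' (E : IntermediateField ℚ Qbar) (τ : E ≃ₐ[ℚ] E) :
    ∃ σ : GQ, ∀ x : E, σ (x : Qbar) = ((τ x : E) : Qbar) := by
  have hgal : IsGalois ℚ Qbar := isGalois_algebraicClosure_rat
  exact ⟨AlgEquiv.liftNormal τ Qbar, fun x => AlgEquiv.liftNormal_commutes τ Qbar x⟩

end DictB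

theorem lift_inertia (E : IntermediateField ℚ Qbar) [FiniteDimensional ℚ E] [IsGalois ℚ E]
    (A : ValuationSubring Qbar) (τ : E ≃ₐ[ℚ] E)
    (hτ : ∀ x : 𝓞 E, (((τ (x : E) - (x : E) : E)) : Qbar) ∈ A.nonunits) :
    ∃ σ ∈ A.inertiaSubgroupIn ℚ, ∀ x : E, σ (x : Qbar) = ((τ x : E) : Qbar) := by
  have hgal : IsGalois ℚ Qbar := Fermat.Agent.Lib.FrobeniusExists.isGalois_algebraicClosure_rat
  obtain ⟨g, hg⟩ := DictB.exists_lift' E τ
  have hn : E.fixingSubgroup.Normal :=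
    @IsGalois.fixingSubgroup_normal_of_isGalois ℚ Qbar _ _ _ E hgal ‹IsGalois ℚ E›
  obtain ⟨σ, hσ, hσE⟩ := DictB.lift_inertia_aux E A g (by
    intro x hxE hxint
    have hint : IsIntegral ℤ (⟨x, hxE⟩ : E) :=
      (isIntegral_algebraMap_iff (A := E) (B := Qbar) (algebraMap E Qbar).injective).mp hxint
    have h1 := hτ ⟨⟨x, hxE⟩, hint⟩
    have h2 := hg ⟨x, hxE⟩
    rw [show g x = ((τ ⟨x, hxE⟩ : E) : Qbar) from h2]
    exact h1)
  exact ⟨σ, hσ, fun x => (hσE x x.2).trans (hg x)⟩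

theorem lift_decomposition (E : IntermediateField ℚ Qbar) [FiniteDimensional ℚ E] [IsGalois ℚ E]
    (A : ValuationSubring Qbar) (τ : E ≃ₐ[ℚ] E)
    (hτ : ∀ x : 𝓞 E, ((x : E) : Qbar) ∈ A.nonunits ↔ ((τ (x : E) : E) : Qbar) ∈ A.nonunits) :
    ∃ σ ∈ A.decompositionSubgroup ℚ, ∀ x : E, σ (x : Qbar) = ((τ x : E) : Qbar) := by
  have hgal : IsGalois ℚ Qbar := Fermat.Agent.Lib.FrobeniusExists.isGalois_algebraicClosure_rat
  obtain ⟨g, hg⟩ := DictB.exists_lift' E τ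
  have hn : E.fixingSubgroup.Normal :=
    @IsGalois.fixingSubgroup_normal_of_isGalois ℚ Qbar _ _ _ E hgal ‹IsGalois ℚ E›
  obtain ⟨σ, hσ, hσE⟩ := DictB.lift_decomposition_aux E A g (by
    intro x hxE hxint
    have hint : IsIntegral ℤ (⟨x, hxE⟩ : E) :=
      (isIntegral_algebraMap_iff (A := E) (B := Qbar) (algebraMap E Qbar).injective).mp hxint
    have h1 := hτ ⟨⟨x, hxE⟩, hint⟩
    have h2 := hg ⟨x, hxE⟩
    rw [show g x = ((τ ⟨x, hxE⟩ : E) : Qbar) from h2]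
    exact h1)
  exact ⟨σ, hσ, fun x => (hσE x x.2).trans (hg x)⟩

end Fermat.Agent.S14
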