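import Fermat.Agent.S14.T1.Contracts
import Fermat.Agent.Lib.FrobeniusExists

/-!
# S14, block (T1), package T1-B1: dictionary, easy part
-/

set_option autoImplicit false

namespace Fermat.Agent.S14

open NumberField ExtCitation
open scoped Pointwise

local notation "Qbar" => AlgebraicClosure ℚ

theorem dictA_exists_prime_of_natCast_mem {R : Type*} [CommRing R] (P : Ideal R) (hP : P.IsPrime)
    (n : ℕ) (hn : n ≠ 0) (h : (n : R) ∈ P) : ∃ ℓ : ℕ, ℓ.Prime ∧ (ℓ : R) ∈ P := by
  induction n using induction_on_primes with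
  | zero => exact absurd rfl hn
  | one =>
    exfalso
    apply hP.ne_top
    rw [Ideal.eq_top_iff_one]
    simpa using h
  | prime_mul q a hq ih =>
    rw [Nat.cast_mul] at h
    rcases hP.mem_or_mem h with h1 | h1
    · exact ⟨q, hq, h1⟩
    · exact ih (fun h0 => hn (by rw [h0, mul_zero])) h1

theorem exists_prime_mem {E : Type*} [Field E] [NumberField E]
    (P : Ideal (𝓞 E)) (hP : P.IsPrime) (hP0 : P ≠ ⊥) : ∃ ℓ : ℕ, ℓ.Prime ∧ (ℓ : 𝓞 E) ∈ P :=
  dictA_exists_prime_of_natCast_mem P hP (Ideal.absNorm P)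
    (fun h => hP0 (Ideal.absNorm_eq_zero_iff.mp h)) (Ideal.absNorm_mem P)

/-- general version: a maximal ideal of a ring mapping injectively to a field is cut out by a
valuation subring. -/
theorem dictA_exists_valuationSubring {R L : Type*} [CommRing R] [Field L] (φ : R →+* L)
    (hφ : Function.Injective φ) (P : Ideal R) (hP : P.IsMaximal) :
    ∃ A : ValuationSubring L, ∀ x : R, x ∈ P ↔ φ x ∈ A.nonunits := by
  let I : Ideal φ.range := P.map φ.rangeRestrict
  have hI : I ≠ ⊤ := by
    intro h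
    have h1 : (1 : φ.range) ∈ I := by rw [h]; trivial
    obtain ⟨y, hy, hy1⟩ := (Ideal.mem_map_iff_of_surjective _ φ.rangeRestrict_surjective).mp h1
    have h2 : φ y = 1 := congrArg Subtype.val hy1
    have h3 : y = 1 := hφ (by rw [h2, map_one])
    exact hP.ne_top ((Ideal.eq_top_iff_one P).mpr (h3 ▸ hy))
  obtain ⟨A, hA, hAI⟩ := Ideal.image_subset_nonunits_valuationSubring I hI
  have hmem : ∀ x : R, φ x ∈ A := fun x => hA ⟨x, rfl⟩
  have hfwd : ∀ x : R, x ∈ P → φ x ∈ A.nonunits := fun x hx =>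
    hAI ⟨φ.rangeRestrict x, Ideal.mem_map_of_mem _ hx, rfl⟩
  refine ⟨A, fun x => ⟨hfwd x, fun hx => ?_⟩⟩
  by_contra hxP
  obtain ⟨y, hy⟩ := hP.exists_inv hxP
  obtain ⟨z, hz, hyz⟩ := hy
  -- `y * x + z = 1`
  have h1 : φ y * φ x + φ z = 1 := by rw [← map_mul, ← map_add, hyz, map_one]
  have h2 := hfwd z hz
  rw [ValuationSubring.mem_nonunits_iff] at hx h2
  have h3 : A.valuation (φ y) ≤ 1 := (A.valuation_le_one_iff _).mpr (hmem y)
  have h4 : A.valuation (φ y * φ x) < 1 := by
    rw [map_mul, mul_comm]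
    exact mul_lt_one_of_lt_of_le hx h3
  have h5 := A.valuation.map_add (φ y * φ x) (φ z)
  rw [h1, map_one] at h5
  exact absurd (lt_of_le_of_lt h5 (max_lt h4 h2)) (lt_irrefl _)

theorem dictA_mem_nonunits_top {L : Type*} [Field L] (x : L) :
    x ∈ (⊤ : ValuationSubring L).nonunits ↔ x = 0 := by
  rw [ValuationSubring.mem_nonunits_iff]
  constructor
  · intro h
    by_contra hx
    have h1 : (⊤ : ValuationSubring L).valuation x⁻¹ ≤ 1 :=
      (ValuationSubring.valuation_le_one_iff _ _).mpr trivial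
    have h2 : (⊤ : ValuationSubring L).valuation (x * x⁻¹) < 1 := by
      rw [map_mul]
      exact mul_lt_one_of_lt_of_le h h1
    rw [mul_inv_cancel₀ hx, map_one] at h2
    exact lt_irrefl _ h2
  · rintro rfl
    rw [map_zero]
    exact zero_lt_one

theorem exists_valuationSubring_over (E : IntermediateField ℚ Qbar) [FiniteDimensional ℚ E]
    (P : Ideal (𝓞 E)) (hP : P.IsPrime) :
    ∃ A : ValuationSubring Qbar, ∀ x : 𝓞 E, x ∈ P ↔ (((x : E) : Qbar)) ∈ A.nonunits := by
  by_cases hP0 : P = ⊥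
  · refine ⟨⊤, fun x => ?_⟩
    rw [hP0, Ideal.mem_bot, dictA_mem_nonunits_top]
    constructor
    · rintro rfl; rfl
    · intro h
      have h1 : (x : E) = 0 := Subtype.ext h
      exact_mod_cast h1
  · have : NumberField E := { to_charZero := inferInstance, to_finiteDimensional := inferInstance }
    have hmax : P.IsMaximal := hP.isMaximal hP0
    exact dictA_exists_valuationSubring
      ((algebraMap E Qbar).comp (algebraMap (𝓞 E) E))
      ((algebraMap E Qbar).injective.comp (RingOfIntegers.coe_injective)) P hmax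

/-- every automorphism of `E` lifts -/
theorem exists_lift (E : IntermediateField ℚ Qbar) (τ : E ≃ₐ[ℚ] E) :
    ∃ σ : GQ, ∀ x : E, σ (x : Qbar) = ((τ x : E) : Qbar) := by
  have : IsGalois ℚ Qbar := Fermat.Agent.Lib.FrobeniusExists.isGalois_algebraicClosure_rat
  exact ⟨AlgEquiv.liftNormal τ Qbar, fun x => AlgEquiv.liftNormal_commutes τ Qbar x⟩

/-- every automorphism of `Qbar` restricts to a normal subfield -/
theorem exists_restrict (E : IntermediateField ℚ Qbar) [IsGalois ℚ E] (σ : GQ) :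
    ∃ τ : E ≃ₐ[ℚ] E, ∀ x : E, ((τ x : E) : Qbar) = σ (x : Qbar) :=
  ⟨AlgEquiv.restrictNormal σ E, fun x => AlgEquiv.restrictNormal_commutes σ E x⟩

/-- Galois correspondence for an open normal subgroup. -/
theorem exists_field_of_open_normal (N : Subgroup GQ) [N.Normal] (hN : IsOpen (N : Set GQ)) :
    ∃ E : IntermediateField ℚ Qbar, FiniteDimensional ℚ E ∧ IsGalois ℚ E ∧
      (∀ x : Qbar, x ∈ E ↔ ∀ σ ∈ N, σ x = x) ∧ (∀ σ : GQ, σ ∈ N ↔ ∀ x ∈ E, σ x = x) := by
  have : IsGalois ℚ Qbar := Fermat.Agent.Lib.FrobeniusExists.isGalois_algebraicClosure_rat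
  have hH : IsClosed (N : Set GQ) := Subgroup.isClosed_of_isOpen N hN
  have hL : (IntermediateField.fixedField N).fixingSubgroup = N :=
    InfiniteGalois.fixingSubgroup_fixedField (k := ℚ) (K := Qbar) ⟨N, hH⟩
  obtain ⟨hfd, hgal⟩ :=
    (InfiniteGalois.isOpen_and_normal_iff_finite_and_isGalois
      (IntermediateField.fixedField N)).mp
      ⟨by rw [hL]; exact hN, by rw [hL]; infer_instance⟩
  refine ⟨IntermediateField.fixedField N, hfd, hgal, fun x => ?_, fun σ => ?_⟩
  · rw [IntermediateField.mem_fixedField_iff]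
  · conv_lhs => rw [← hL]
    rw [IntermediateField.mem_fixingSubgroup_iff]

end Fermat.Agent.S14
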