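import Fermat.Agent.S14.T1.Contracts

/-!
# S14, block (T1-A): cocycle reduction `splits_of_sel`
-/

set_option autoImplicit false

namespace Fermat.Agent.S14

open NumberField ExtCitation Module
open scoped Pointwise

local notation "Qbar" => AlgebraicClosure ℚ

section Abstract

variable {G F V : Type*} [Group G] [Field F] [AddCommGroup V] [Module F V]
  [DistribMulAction G V] [SMulCommClass G F V]

omit [DistribMulAction G V] [SMulCommClass G F V] [Group G] in
theorem coc_isCompl_span {C : Submodule F V} (hC : finrank F C = 1) (hV : finrank F V = 2)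
    {w : V} (hw : w ∉ C) : IsCompl C (Submodule.span F {w}) := by
  have hw0 : w ≠ 0 := fun h => hw (h ▸ C.zero_mem)
  have hfin : FiniteDimensional F V := FiniteDimensional.of_finrank_pos (by omega)
  have hdisj : Disjoint C (Submodule.span F {w}) :=
    (Submodule.disjoint_span_singleton' hw0).mpr hw
  refine ⟨hdisj, ?_⟩
  rw [codisjoint_iff]
  apply Submodule.eq_top_of_finrank_eq
  have h := Submodule.finrank_sup_add_finrank_inf_eq C (Submodule.span F {w})
  rw [disjoint_iff.mp hdisj, finrank_bot, hC, finrank_span_singleton hw0] at h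
  omega

omit [SMulCommClass G F V] in
theorem coc_exists_data (χ : G →* Fˣ) {C : Submodule F V} (hC : finrank F C = 1)
    (hV : finrank F V = 2) (quot : ∀ (σ : G) (x : V), σ • x - ((χ σ : Fˣ) : F) • x ∈ C) :
    ∃ (e1 e2 : V) (b : G → F), e1 ∈ C ∧ e1 ≠ 0 ∧ e2 ∉ C ∧
      ∀ σ, σ • e2 = ((χ σ : Fˣ) : F) • e2 + b σ • e1 := by
  obtain ⟨⟨e1, he1⟩, hne, hspan⟩ := finrank_eq_one_iff'.mp hC
  have hCtop : C ≠ ⊤ := by
    intro h
    rw [h, finrank_top] at hC
    omega
  obtain ⟨e2, -, he2⟩ := SetLike.exists_of_lt (lt_top_iff_ne_top.mpr hCtop)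
  have hb : ∀ σ : G, ∃ a : F, σ • e2 = ((χ σ : Fˣ) : F) • e2 + a • e1 := by
    intro σ
    obtain ⟨a, ha⟩ := hspan ⟨_, quot σ e2⟩
    refine ⟨a, ?_⟩
    have ha' : a • e1 = σ • e2 - ((χ σ : Fˣ) : F) • e2 := congrArg Subtype.val ha
    rw [ha']; abel
  choose b hb using hb
  exact ⟨e1, e2, b, he1, fun h => hne (Subtype.ext h), he2, hb⟩

variable (χ : G →* Fˣ) {C : Submodule F V} {e1 e2 : V} {b : G → F}

theorem coc_cocycle (fixed : ∀ (σ : G), ∀ x ∈ C, σ • x = x) (he1 : e1 ∈ C) (hne : e1 ≠ 0)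
    (hb : ∀ σ, σ • e2 = ((χ σ : Fˣ) : F) • e2 + b σ • e1) (σ τ : G) :
    b (σ * τ) = ((χ τ : Fˣ) : F) * b σ + b τ := by
  have h1 : (σ * τ) • e2 = ((χ (σ * τ) : Fˣ) : F) • e2 + b (σ * τ) • e1 := hb _
  have h2 : (σ * τ) • e2 =
      ((χ (σ * τ) : Fˣ) : F) • e2 + (((χ τ : Fˣ) : F) * b σ + b τ) • e1 := by
    rw [mul_smul, hb τ, smul_add, smul_comm σ, smul_comm σ, hb σ, fixed σ e1 he1, map_mul,
      Units.val_mul, smul_add, smul_smul, smul_smul, add_smul, mul_comm ((χ σ : Fˣ) : F), add_assoc]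
  rw [h1] at h2
  exact smul_left_injective F hne (add_left_cancel h2)

omit [SMulCommClass G F V] in
theorem coc_fix_e2_iff (he1 : e1 ∈ C) (hne : e1 ≠ 0) (he2 : e2 ∉ C)
    (hb : ∀ σ, σ • e2 = ((χ σ : Fˣ) : F) • e2 + b σ • e1) (σ : G) :
    σ • e2 = e2 ↔ χ σ = 1 ∧ b σ = 0 := by
  constructor
  · intro h
    have h1 : (1 - ((χ σ : Fˣ) : F)) • e2 = b σ • e1 := by
      rw [sub_smul, one_smul]
      nth_rewrite 1 [← h]
      rw [hb σ]; abel
    have hχ : ((χ σ : Fˣ) : F) = 1 := by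
      by_contra hcon
      have hne' : (1 - ((χ σ : Fˣ) : F)) ≠ 0 := sub_ne_zero.mpr (Ne.symm hcon)
      apply he2
      have : e2 = (1 - ((χ σ : Fˣ) : F))⁻¹ • (b σ • e1) := by
        rw [← h1, smul_smul, inv_mul_cancel₀ hne', one_smul]
      rw [this]
      exact C.smul_mem _ (C.smul_mem _ he1)
    refine ⟨Units.ext hχ, ?_⟩
    rw [hχ, sub_self, zero_smul] at h1
    exact (smul_eq_zero.mp h1.symm).resolve_right hne
  · rintro ⟨h1, h2⟩
    rw [hb σ, h1, h2]; simp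

theorem coc_fix_all_iff (hC : finrank F C = 1) (hV : finrank F V = 2)
    (fixed : ∀ (σ : G), ∀ x ∈ C, σ • x = x) (he1 : e1 ∈ C) (hne : e1 ≠ 0) (he2 : e2 ∉ C)
    (hb : ∀ σ, σ • e2 = ((χ σ : Fˣ) : F) • e2 + b σ • e1) (σ : G) :
    (∀ v : V, σ • v = v) ↔ χ σ = 1 ∧ b σ = 0 := by
  rw [← coc_fix_e2_iff χ he1 hne he2 hb σ]
  refine ⟨fun h => h e2, fun h v => ?_⟩
  have hcompl := coc_isCompl_span hC hV he2
  have hv : v ∈ C ⊔ Submodule.span F {e2} := by
    rw [codisjoint_iff.mp hcompl.2]; trivial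
  obtain ⟨c, hc, w, hw, rfl⟩ := Submodule.mem_sup.mp hv
  obtain ⟨a, rfl⟩ := Submodule.mem_span_singleton.mp hw
  rw [smul_add, fixed σ c hc, smul_comm, h]

omit [SMulCommClass G F V] in
theorem coc_zero_of_local (fixed : ∀ (σ : G), ∀ x ∈ C, σ • x = x)
    (quot : ∀ (σ : G) (x : V), σ • x - ((χ σ : Fˣ) : F) • x ∈ C)
    (he1 : e1 ∈ C) (hne : e1 ≠ 0) (he2 : e2 ∉ C)
    (hb : ∀ σ, σ • e2 = ((χ σ : Fˣ) : F) • e2 + b σ • e1)
    {C' : Submodule F V} (hcompl : IsCompl C C') (σ : G) (hσ : ∀ x ∈ C', σ • x ∈ C')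
    (hχ : χ σ = 1) : b σ = 0 := by
  have hv : e2 ∈ C ⊔ C' := by
    rw [codisjoint_iff.mp hcompl.2]; trivial
  obtain ⟨c, hc, w, hw, hcw⟩ := Submodule.mem_sup.mp hv
  have h1 : σ • w - w ∈ C := by
    have := quot σ w
    rwa [hχ, Units.val_one, one_smul] at this
  have h2 : σ • w - w ∈ C' := C'.sub_mem (hσ w hw) hw
  have h3 : σ • w - w = 0 := by
    have : σ • w - w ∈ C ⊓ C' := ⟨h1, h2⟩
    rwa [disjoint_iff.mp hcompl.1, Submodule.mem_bot] at this
  have h4 : σ • e2 = e2 := by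
    rw [← hcw, smul_add, fixed σ c hc, sub_eq_zero.mp h3]
  exact ((coc_fix_e2_iff χ he1 hne he2 hb σ).mp h4).2

theorem coc_split (hC : finrank F C = 1) (hV : finrank F V = 2)
    (fixed : ∀ (σ : G), ∀ x ∈ C, σ • x = x) (he1 : e1 ∈ C) (hne : e1 ≠ 0) (he2 : e2 ∉ C)
    (hb : ∀ σ, σ • e2 = ((χ σ : Fˣ) : F) • e2 + b σ • e1)
    (hker : ∀ σ, χ σ = 1 → b σ = 0) :
    ∃ C' : Submodule F V, (∀ (σ : G), ∀ x ∈ C', σ • x ∈ C') ∧ IsCompl C C' := by
  have hcoc := coc_cocycle χ fixed he1 hne hb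
  -- `b` is symmetric
  have hsymm : ∀ σ τ : G, b (σ * τ) = b (τ * σ) := by
    intro σ τ
    have hk : χ ((τ * σ)⁻¹ * (σ * τ)) = 1 := by
      simp only [map_mul, map_inv]
      rw [mul_comm (χ τ) (χ σ), inv_mul_cancel]
    have h := hcoc (τ * σ) ((τ * σ)⁻¹ * (σ * τ))
    rw [mul_inv_cancel_left, hk, hker _ hk] at h
    simpa using h
  have hrel : ∀ σ τ : G, (((χ τ : Fˣ) : F) - 1) * b σ = (((χ σ : Fˣ) : F) - 1) * b τ := by
    intro σ τ
    have h := hsymm σ τ
    rw [hcoc, hcoc] at h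
    linear_combination h
  obtain ⟨t, ht⟩ : ∃ t : F, ∀ σ, b σ = (((χ σ : Fˣ) : F) - 1) * t := by
    by_cases hall : ∀ σ, χ σ = 1
    · exact ⟨0, fun σ => by rw [hker σ (hall σ), mul_zero]⟩
    · push Not at hall
      obtain ⟨σ0, hσ0⟩ := hall
      have hne0 : (((χ σ0 : Fˣ) : F) - 1) ≠ 0 := by
        intro h
        exact hσ0 (Units.ext (sub_eq_zero.mp h))
      refine ⟨b σ0 / (((χ σ0 : Fˣ) : F) - 1), fun σ => ?_⟩
      have := hrel σ σ0
      field_simp
      linear_combination this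
  have hw : e2 + t • e1 ∉ C := by
    intro h
    apply he2
    have := C.sub_mem h (C.smul_mem t he1)
    simpa using this
  refine ⟨Submodule.span F {e2 + t • e1}, ?_, coc_isCompl_span hC hV hw⟩
  intro σ x hx
  obtain ⟨a, rfl⟩ := Submodule.mem_span_singleton.mp hx
  rw [smul_comm]
  apply Submodule.smul_mem
  have : σ • (e2 + t • e1) = ((χ σ : Fˣ) : F) • (e2 + t • e1) := by
    rw [smul_add, smul_comm, fixed σ e1 he1, hb σ, ht σ, smul_add, smul_smul, add_assoc, ← add_smul]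
    congr 2
    ring
  rw [this]
  exact Submodule.smul_mem _ _ (Submodule.mem_span_singleton_self _)

end Abstract

theorem splits_of_sel {p : ℕ} [Fact p.Prime] (h3 : 3 ≤ p) (hsel : SelStatement p)
    (V : Type) [AddCommGroup V] [Module (ZMod p) V] [DistribMulAction GQ V]
    [SMulCommClass GQ (ZMod p) V] (C : Submodule (ZMod p) V)
    (hadm : IsAdmissibleExtensionCts p V C) : SplitsGlobally C := by
  have hp1 : 1 < p := by omega
  have hfinV : Finite V := Nat.finite_of_card_ne_zero (by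
    rw [hadm.card_total]; positivity)
  have hV : finrank (ZMod p) V = 2 := by
    have h := Module.natCard_eq_pow_finrank (K := ZMod p) (V := V)
    rw [hadm.card_total, Nat.card_zmod] at h
    exact (Nat.pow_right_injective hp1 h).symm
  have hC : finrank (ZMod p) C = 1 := by
    have h := Module.natCard_eq_pow_finrank (K := ZMod p) (V := C)
    rw [hadm.card_sub, Nat.card_zmod] at h
    nth_rewrite 1 [← pow_one p] at h
    exact (Nat.pow_right_injective hp1 h).symm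
  have quot : ∀ (σ : GQ) (x : V), σ • x - ((cycloChar p σ : (ZMod p)ˣ) : ZMod p) • x ∈ C := by
    intro σ x
    rw [coe_cycloChar]
    exact hadm.cyclo_quot σ x
  obtain ⟨e1, e2, b, he1, hne, he2, hb⟩ := coc_exists_data (cycloChar p) hC hV quot
  have hfix := coc_fix_all_iff (cycloChar p) hC hV hadm.fixed_sub he1 hne he2 hb
  have hker : ∀ σ : GQ, cycloChar p σ = 1 → b σ = 0 := by
    apply hsel b (coc_cocycle (cycloChar p) hadm.fixed_sub he1 hne hb)
    · have : {σ : GQ | cycloChar p σ = 1 ∧ b σ = 0} = {σ : GQ | ∀ v : V, σ • v = v} := by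
        ext σ
        exact (hfix σ).symm
      rw [this]
      exact hadm.open_kernel
    · intro ℓ hℓ hℓp A hA σ hσ
      exact (hfix σ).mp (hadm.unramified_outside ℓ hℓ hℓp A hA σ hσ)
    · intro A hA σ hσ hχ
      obtain ⟨C', hC', hcompl⟩ := hadm.locally_split A hA
      exact coc_zero_of_local (cycloChar p) hadm.fixed_sub quot he1 hne he2 hb hcompl σ
        (hC' σ hσ) hχ
  exact coc_split (cycloChar p) hC hV hadm.fixed_sub he1 hne he2 hb hker

end Fermat.Agent.S14
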