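import Fermat.Agent.S14.T1.Sel
import Fermat.Agent.S14.T1.Cocycle

/-!
# S14, block (T1): `FiniteLevelStatement p → ExtVanishingCts p`
-/

set_option autoImplicit false

namespace Fermat.Agent.S14

open ExtCitation

/-- Block (T1): the statement S14 follows from the finite level statement. -/
theorem extVanishingCts_of_finiteLevel {p : ℕ} [Fact p.Prime] (h3 : 3 ≤ p)
    (hfin : FiniteLevelStatement p) : ExtCitation.ExtVanishingCts p :=
  fun V _ _ _ _ C hadm => splits_of_sel h3 (sel_of_finiteLevel h3 hfin) V C hadm

end Fermat.Agent.S14
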