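import Fermat.Agent.S14.T1.Contracts

/-!
# S14, block (T1), package T1-C1: cyclotomic character spec + cocycle group theory
-/

set_option autoImplicit false

namespace Fermat.Agent.S14

open NumberField ExtCitation
open scoped Pointwise

local notation "Qbar" => AlgebraicClosure ℚ

theorem cycloChar_spec (p : ℕ) [Fact p.Prime] (σ : GQ) (ζ : Qbar) (hζ : ζ ^ p = 1) :
    σ ζ = ζ ^ ((cycloChar p σ : (ZMod p)ˣ) : ZMod p).val := by
  have : NeZero p := ⟨(Fact.out : p.Prime).ne_zero⟩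
  have hp0 : p ≠ 0 := (Fact.out : p.Prime).ne_zero
  have hu : IsUnit ζ := IsUnit.of_pow_eq_one hζ hp0
  obtain ⟨t, rfl⟩ := hu
  have ht : t ∈ rootsOfUnity p Qbar := by
    rw [mem_rootsOfUnity]
    exact Units.ext (by simpa using hζ)
  exact modularCyclotomicCharacter.spec (L := Qbar) (card_rootsOfUnity_eq_self p)
    (σ : Qbar ≃+* Qbar) ht

theorem cycloChar_eq_of_apply (p : ℕ) [Fact p.Prime] (σ : GQ) (ζ : Qbar)
    (hζ : IsPrimitiveRoot ζ p) (n : ℕ) (h : σ ζ = ζ ^ n) :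
    ((cycloChar p σ : (ZMod p)ˣ) : ZMod p) = (n : ZMod p) := by
  have : NeZero p := ⟨(Fact.out : p.Prime).ne_zero⟩
  have h1 := cycloChar_spec p σ ζ hζ.pow_eq_one
  rw [h] at h1
  have hfin : IsOfFinOrder ζ :=
    isOfFinOrder_iff_pow_eq_one.mpr ⟨p, (Fact.out : p.Prime).pos, hζ.pow_eq_one⟩
  have h2 := hfin.pow_eq_pow_iff_modEq.mp h1
  rw [← hζ.eq_orderOf] at h2
  have h3 := (ZMod.natCast_eq_natCast_iff _ _ _).mpr h2
  rw [h3, ZMod.natCast_val, ZMod.cast_id]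

section Coc

variable {p : ℕ} [Fact p.Prime] (b : GQ → ZMod p)
    (hcoc : ∀ σ τ : GQ, b (σ * τ) = ((cycloChar p τ : (ZMod p)ˣ) : ZMod p) * b σ + b τ)

include hcoc

theorem coc_one : b 1 = 0 := by
  have h := hcoc 1 1
  rw [mul_one, map_one, Units.val_one, one_mul] at h
  exact left_eq_add.mp h

/-- `χ(s) b(s⁻¹) + b(s) = 0`. -/
theorem coc_inv_add (s : GQ) : ((cycloChar p s : (ZMod p)ˣ) : ZMod p) * b s⁻¹ + b s = 0 := by
  rw [← hcoc, inv_mul_cancel, coc_one b hcoc]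

/-- `b (s⁻¹ t s) = χ(s) b(t)` for `t ∈ ker χ`. -/
theorem coc_conj (s t : GQ) (ht : cycloChar p t = 1) :
    b (s⁻¹ * t * s) = ((cycloChar p s : (ZMod p)ˣ) : ZMod p) * b t := by
  rw [hcoc, hcoc, ht, Units.val_one, one_mul]
  linear_combination coc_inv_add b hcoc s

theorem coc_pow (t : GQ) (ht : cycloChar p t = 1) (n : ℕ) : b (t ^ n) = n * b t := by
  induction n with
  | zero => simpa using coc_one b hcoc
  | succ n ih =>
    rw [pow_succ, hcoc, ht, Units.val_one, one_mul, ih]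
    push_cast
    ring

/-- The subgroup `N = {χ = 1, b = 0}`. -/
def cocKer {p : ℕ} [Fact p.Prime] (b : GQ → ZMod p)
    (hcoc : ∀ σ τ : GQ, b (σ * τ) = ((cycloChar p τ : (ZMod p)ˣ) : ZMod p) * b σ + b τ) :
    Subgroup GQ where
  carrier := {σ : GQ | cycloChar p σ = 1 ∧ b σ = 0}
  mul_mem' := by
    rintro x y ⟨hx1, hx2⟩ ⟨hy1, hy2⟩
    exact ⟨by rw [map_mul, hx1, hy1, one_mul], by rw [hcoc, hx2, hy2, mul_zero, add_zero]⟩
  one_mem' := ⟨map_one _, coc_one b hcoc⟩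
  inv_mem' := by
    rintro x ⟨hx1, hx2⟩
    refine ⟨by rw [map_inv, hx1, inv_one], ?_⟩
    have h := coc_inv_add b hcoc x
    rwa [hx1, hx2, Units.val_one, one_mul, add_zero] at h

theorem cocKer_normal : (cocKer b hcoc).Normal := by
  constructor
  rintro n ⟨hn1, hn2⟩ g
  refine ⟨by rw [map_mul, map_mul, hn1, mul_one, map_inv, mul_inv_cancel], ?_⟩
  have h := coc_conj b hcoc g⁻¹ n hn1
  rw [inv_inv, hn2, mul_zero] at h
  exact h

end Coc

end Fermat.Agent.S14
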