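import Fermat.Agent.S14.T1.Contracts

/-!
# S14, block (T1), package C2 : the Lagrange resolvent in `ℚ̄`
-/

set_option autoImplicit false

namespace Fermat.Agent.S14

open NumberField ExtCitation

local notation "Qbar" => AlgebraicClosure ℚ

namespace LagRes

/-- Elements of the kernel of the mod `p` cyclotomic character fix the `p`-th roots of unity. -/
theorem apply_eq_of_cycloChar_eq_one (p : ℕ) [Fact p.Prime] (σ : GQ) (hσ : cycloChar p σ = 1)
    (ζ : Qbar) (hζ : ζ ^ p = 1) : σ ζ = ζ := by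
  have : NeZero p := ⟨(Fact.out : p.Prime).ne_zero⟩
  have : Fact (1 < p) := ⟨(Fact.out : p.Prime).one_lt⟩
  have hp0 : p ≠ 0 := (Fact.out : p.Prime).ne_zero
  have hu : IsUnit ζ := IsUnit.of_pow_eq_one hζ hp0
  obtain ⟨u, rfl⟩ := hu
  have hmem : u ∈ rootsOfUnity p Qbar := by
    rw [mem_rootsOfUnity]
    exact Units.ext (by simpa using hζ)
  have h := modularCyclotomicCharacter.spec (L := Qbar) (card_rootsOfUnity_eq_self p)
    (σ : Qbar ≃+* Qbar) hmem
  have h1 : ((modularCyclotomicCharacter Qbar (card_rootsOfUnity_eq_self p)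
      (σ : Qbar ≃+* Qbar) : (ZMod p)ˣ) : ZMod p) = 1 := by
    have : cycloChar p σ = modularCyclotomicCharacter Qbar (card_rootsOfUnity_eq_self p)
      (σ : Qbar ≃+* Qbar) := rfl
    rw [← this, hσ]; rfl
  rw [h1, ZMod.val_one, pow_one] at h
  exact h

section Coc

variable {p : ℕ} [Fact p.Prime] (b : GQ → ZMod p)
    (hcoc : ∀ σ τ : GQ, b (σ * τ) = ((cycloChar p τ : (ZMod p)ˣ) : ZMod p) * b σ + b τ)

include hcoc

theorem b_mul (σ τ : GQ) (hτ : cycloChar p τ = 1) : b (σ * τ) = b σ + b τ := by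
  rw [hcoc, hτ]; simp

theorem b_one : b 1 = 0 := by
  have h := b_mul b hcoc 1 1 (map_one _)
  rw [mul_one] at h
  simpa using h

theorem b_pow (x : GQ) (hx : cycloChar p x = 1) (n : ℕ) : b (x ^ n) = n * b x := by
  induction n with
  | zero => simpa using b_one b hcoc
  | succ n ih => rw [pow_succ, b_mul b hcoc _ _ hx, ih]; push_cast; ring

theorem b_inv (x : GQ) (hx : cycloChar p x = 1) : b x⁻¹ = - b x := by
  have h := b_mul b hcoc x⁻¹ x hx
  rw [inv_mul_cancel, b_one b hcoc] at h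
  exact eq_neg_of_add_eq_zero_left h.symm

/-- The subgroup `{χ = 1, b = 0}`. -/
def ker : Subgroup GQ where
  carrier := {σ : GQ | cycloChar p σ = 1 ∧ b σ = 0}
  mul_mem' := by
    rintro x y ⟨hx, hbx⟩ ⟨hy, hby⟩
    exact ⟨by rw [map_mul, hx, hy, one_mul], by rw [b_mul b hcoc _ _ hy, hbx, hby, add_zero]⟩
  one_mem' := ⟨map_one _, b_one b hcoc⟩
  inv_mem' := by
    rintro x ⟨hx, hbx⟩
    exact ⟨by rw [map_inv, hx, inv_one], by rw [b_inv b hcoc _ hx, hbx, neg_zero]⟩

end Coc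

end LagRes

/-- **The Lagrange resolvent.** -/
theorem exists_resolvent {p : ℕ} [Fact p.Prime] (b : GQ → ZMod p)
    (hcoc : ∀ σ τ : GQ, b (σ * τ) = ((cycloChar p τ : (ZMod p)ˣ) : ZMod p) * b σ + b τ)
    (hopen : IsOpen {σ : GQ | cycloChar p σ = 1 ∧ b σ = 0})
    (x₀ : GQ) (hx₀ : cycloChar p x₀ = 1) (hbx₀ : b x₀ ≠ 0) (ζ : Qbar) (hζ : IsPrimitiveRoot ζ p) :
    ∃ β : Qbar, β ≠ 0 ∧ IsIntegral ℤ β ∧
      ∀ y : GQ, cycloChar p y = 1 → y β = ζ ^ (b y).val * β := by
  classical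
  have hp0 : p ≠ 0 := (Fact.out : p.Prime).ne_zero
  have : NeZero p := ⟨hp0⟩
  have : CharZero Qbar := algebraRat.charZero Qbar
  have : Algebra.IsAlgebraic ℚ Qbar := AlgebraicClosure.isAlgebraic ℚ
  have : IsGalois ℚ Qbar :=
    @IsAlgClosure.isGalois ℚ (AlgebraicClosure ℚ) _ _ (AlgebraicClosure.instAlgebra ℚ) _ _
  -- the open subgroup `N`
  set N : Subgroup GQ := LagRes.ker b hcoc with hN
  have hNopen : IsOpen (N : Set GQ) := hopen
  have hNclosed : IsClosed (N : Set GQ) := N.isClosed_of_isOpen hNopen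
  have hfix := InfiniteGalois.fixingSubgroup_fixedField (k := ℚ) (K := Qbar) ⟨N, hNclosed⟩
  change (IntermediateField.fixedField N).fixingSubgroup = N at hfix
  -- an element `θ` of the fixed field of `N` moved by `x₀`
  obtain ⟨θ, hθN, hθx⟩ : ∃ θ : Qbar, (∀ σ ∈ N, σ θ = θ) ∧ x₀ θ ≠ θ := by
    by_contra hcon
    push Not at hcon
    have hmem : x₀ ∈ (IntermediateField.fixedField N).fixingSubgroup := by
      rw [IntermediateField.mem_fixingSubgroup_iff]
      intro x hx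
      rw [IntermediateField.mem_fixedField_iff] at hx
      exact hcon x hx
    rw [hfix] at hmem
    exact hbx₀ hmem.2
  -- a section `g` of `b`
  set g : ZMod p → GQ := fun c => x₀ ^ (c * (b x₀)⁻¹).val with hg
  have hgχ : ∀ c, cycloChar p (g c) = 1 := fun c => by
    simp only [hg, map_pow, hx₀, one_pow]
  have hgb : ∀ c, b (g c) = c := fun c => by
    simp only [hg]
    rw [LagRes.b_pow b hcoc _ hx₀, ZMod.natCast_zmod_val, mul_assoc, inv_mul_cancel₀ hbx₀, mul_one]
  have hg0 : g 0 = 1 := by simp [hg]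
  have hyg : ∀ y : GQ, cycloChar p y = 1 → ∀ c, y (g c θ) = g (b y + c) θ := by
    intro y hy c
    have hz : (g (b y + c))⁻¹ * (y * g c) ∈ N := by
      refine ⟨by simp [map_mul, map_inv, hgχ, hy], ?_⟩
      have h1 : cycloChar p (y * g c) = 1 := by rw [map_mul, hy, hgχ, one_mul]
      rw [LagRes.b_mul b hcoc _ _ h1, LagRes.b_inv b hcoc _ (hgχ _), hgb,
        LagRes.b_mul b hcoc _ _ (hgχ _), hgb]
      ring
    have h2 := hθN _ hz
    have h3 : (g (b y + c)) (((g (b y + c))⁻¹ * (y * g c)) θ) = y (g c θ) := by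
      simp only [AlgEquiv.mul_apply]
      exact AlgEquiv.apply_symm_apply _ _
    rw [← h3, h2]
  -- the additive character
  set ψ : AddChar (ZMod p) Qbar := AddChar.zmodChar p hζ.pow_eq_one with hψ
  have hψprim : ψ.IsPrimitive := AddChar.zmodChar_primitive_of_primitive_root p hζ
  have hyψ : ∀ y : GQ, cycloChar p y = 1 → ∀ a, y (ψ a) = ψ a := by
    intro y hy a
    rw [hψ, AddChar.zmodChar_apply, map_pow,
      LagRes.apply_eq_of_cycloChar_eq_one p y hy ζ hζ.pow_eq_one]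
  -- the resolvents
  set B : ZMod p → Qbar := fun j => ∑ c : ZMod p, ψ (-(j * c)) * g c θ with hB
  have hyB : ∀ y : GQ, cycloChar p y = 1 → ∀ j, y (B j) = ψ (j * b y) * B j := by
    intro y hy j
    simp only [hB, map_sum, map_mul, hyψ y hy, hyg y hy, Finset.mul_sum]
    refine Fintype.sum_equiv (Equiv.addLeft (b y)) _ _ (fun c => ?_)
    rw [Equiv.coe_addLeft, ← mul_assoc, ← AddChar.map_add_eq_mul]
    congr 2
    ring
  have hsum : ∑ j : ZMod p, B j = (p : Qbar) * θ := by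
    simp only [hB]
    rw [Finset.sum_comm]
    have h1 : ∀ c : ZMod p, ∑ j : ZMod p, ψ (-(j * c)) * g c θ
        = (if c = 0 then (p : Qbar) else 0) * g c θ := by
      intro c
      rw [← Finset.sum_mul]
      congr 1
      have h2 := AddChar.sum_mulShift (-c) hψprim
      simp only [mul_neg, neg_eq_zero, ZMod.card] at h2
      rw [h2]
      split_ifs <;> simp
    simp only [h1, ite_mul, zero_mul, Finset.sum_ite_eq', Finset.mem_univ, if_true, hg0]
    rfl
  obtain ⟨j, hj0, hBj⟩ : ∃ j : ZMod p, j ≠ 0 ∧ B j ≠ 0 := by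
    by_contra hcon
    push Not at hcon
    have h1 : ∑ j : ZMod p, B j = B 0 :=
      Finset.sum_eq_single 0 (fun j _ hj => hcon j hj) (fun h => absurd (Finset.mem_univ _) h)
    have h2 := hyB x₀ hx₀ 0
    rw [zero_mul, AddChar.map_zero_eq_one, one_mul, ← h1, hsum, map_mul, map_natCast] at h2
    exact hθx (mul_left_cancel₀ (Nat.cast_ne_zero.mpr hp0) h2)
  -- the right power
  have hβ0 : ∀ y : GQ, cycloChar p y = 1 →
      y (B j ^ (j⁻¹).val) = ζ ^ (b y).val * B j ^ (j⁻¹).val := by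
    intro y hy
    rw [map_pow, hyB y hy, mul_pow, ← AddChar.map_nsmul_eq_pow, nsmul_eq_mul,
      ZMod.natCast_zmod_val, ← mul_assoc, inv_mul_cancel₀ hj0, one_mul, hψ,
      AddChar.zmodChar_apply]
  -- integrality
  have : Algebra.IsAlgebraic ℤ Qbar :=
    (IsFractionRing.comap_isAlgebraic_iff (A := ℤ) (K := ℚ) (C := Qbar)).mpr inferInstance
  obtain ⟨n, hn0, hn⟩ :=
    (Algebra.IsAlgebraic.isAlgebraic (R := ℤ) (B j ^ (j⁻¹).val)).exists_integral_multiple
  refine ⟨n • B j ^ (j⁻¹).val, ?_, hn, fun y hy => ?_⟩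
  · rw [zsmul_eq_mul]
    exact mul_ne_zero (by exact_mod_cast hn0) (pow_ne_zero _ hBj)
  · rw [map_zsmul, hβ0 y hy, mul_smul_comm]

end Fermat.Agent.S14
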