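import Fermat.Agent.S14.T1.DictA
import Fermat.Agent.S14.T1.DictB
import Fermat.Agent.S14.T1.CocKer
import Fermat.Agent.S14.T1.LagrangeResolvent

/-!
# S14, block (T1), assembly: `FiniteLevelStatement p → SelStatement p`
-/

set_option autoImplicit false

namespace Fermat.Agent.S14

open NumberField ExtCitation
open scoped Pointwise

local notation "Qbar" => AlgebraicClosure ℚ

theorem sel_of_finiteLevel {p : ℕ} [Fact p.Prime] (hp3 : 3 ≤ p) (hfin : FiniteLevelStatement p) :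
    SelStatement p := by
  intro b hcoc hopen hunr hsplit x₀ hx₀
  by_contra hbx₀
  have hp : p.Prime := Fact.out
  have : NeZero p := ⟨hp.ne_zero⟩
  obtain ⟨ζ, hζ⟩ : ∃ ζ : Qbar, IsPrimitiveRoot ζ p :=
    HasEnoughRootsOfUnity.exists_primitiveRoot Qbar p
  obtain ⟨β, hβ0, hβint, hβ⟩ := exists_resolvent b hcoc hopen x₀ hx₀ hbx₀ ζ hζ
  have hNn := cocKer_normal b hcoc
  obtain ⟨E, hfd, hgal, hE, hN⟩ := exists_field_of_open_normal (cocKer b hcoc) hopen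
  have hmemN : ∀ σ : GQ, σ ∈ cocKer b hcoc ↔ cycloChar p σ = 1 ∧ b σ = 0 := fun σ => Iff.rfl
  have hval1 : (1 : ZMod p).val = 1 := by
    have : Fact (1 < p) := ⟨hp.one_lt⟩
    exact ZMod.val_one p
  have hζfix : ∀ σ : GQ, cycloChar p σ = 1 → σ ζ = ζ := by
    intro σ hσ
    rw [cycloChar_spec p σ ζ hζ.pow_eq_one, hσ, Units.val_one, hval1, pow_one]
  have hχ1 : ∀ σ : GQ, σ ζ = ζ → cycloChar p σ = 1 := by
    intro σ hσ
    have h1 := cycloChar_eq_of_apply p σ ζ hζ 1 (by rw [hσ, pow_one])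
    ext
    rw [h1, Nat.cast_one, Units.val_one]
  have hζE : ζ ∈ E := (hE ζ).2 fun σ hσ => hζfix σ hσ.1
  have hβE : β ∈ E := (hE β).2 fun σ hσ => by
    rw [hβ σ hσ.1, hσ.2, ZMod.val_zero, pow_zero, one_mul]
  have hnf : NumberField E := { to_charZero := inferInstance, to_finiteDimensional := hfd }
  have hintE : ∀ (x : Qbar) (hx : x ∈ E), IsIntegral ℤ x → IsIntegral ℤ (⟨x, hx⟩ : E) := by
    intro x hx hi
    exact (isIntegral_algebraMap_iff (A := E) (B := Qbar) (algebraMap E Qbar).injective).mp hi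
  let ζE : 𝓞 E := ⟨⟨ζ, hζE⟩, hintE ζ hζE (hζ.isIntegral hp.pos)⟩
  let βE : 𝓞 E := ⟨⟨β, hβE⟩, hintE β hβE hβint⟩
  let f : 𝓞 E →+* Qbar := (algebraMap E Qbar).comp (algebraMap (𝓞 E) E)
  have hf : ∀ x : 𝓞 E, f x = (((x : 𝓞 E) : E) : Qbar) := fun _ => rfl
  have hfζ : f ζE = ζ := rfl
  have hfβ : f βE = β := rfl
  have hinj : Function.Injective f := by
    intro x y h
    exact RingOfIntegers.ext (Subtype.ext h)
  have hsig : ∀ (τ : E ≃ₐ[ℚ] E) (s : GQ), (∀ x : E, s (x : Qbar) = ((τ x : E) : Qbar)) →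
      ∀ x : 𝓞 E, f (sigO τ x) = s (f x) := by
    intro τ s hs x
    exact (hs x).symm
  have hpowcast : ∀ a c : ℕ, (a : ZMod p) = (c : ZMod p) → ζ ^ a = ζ ^ c := by
    intro a c h
    rw [ZMod.natCast_eq_natCast_iff] at h
    rw [pow_eq_pow_mod a hζ.pow_eq_one, pow_eq_pow_mod c hζ.pow_eq_one]
    exact congrArg _ h
  have hb0 : ∀ s : GQ, cycloChar p s = 1 → s β = β → b s = 0 := by
    intro s hs h
    rw [hβ s hs] at h
    have h1 : ζ ^ (b s).val = 1 := mul_right_cancel₀ hβ0 (by rw [h, one_mul])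
    have h2 := (hζ.pow_eq_one_iff_dvd _).mp h1
    have h3 := Nat.eq_zero_of_dvd_of_lt h2 (ZMod.val_lt _)
    exact (ZMod.val_eq_zero _).mp h3
  have hNfix : ∀ s : GQ, cycloChar p s = 1 → b s = 0 → ∀ x ∈ E, s x = x := by
    intro s h1 h2
    exact (hN s).mp ⟨h1, h2⟩
  have hζE' : IsPrimitiveRoot ζE p := IsPrimitiveRoot.of_map_of_injective (f := f) hζ hinj
  have hβE0 : βE ≠ 0 := by
    intro h
    apply hβ0
    rw [← hfβ, h, map_zero]
  have hfaith : ∀ τ : E ≃ₐ[ℚ] E, sigO τ ζE = ζE → sigO τ βE = βE → τ = 1 := by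
    intro τ h1 h2
    obtain ⟨s, hs⟩ := exists_lift E τ
    have h3 : s ζ = ζ := by rw [← hfζ, ← hsig τ s hs, h1]
    have h4 : s β = β := by rw [← hfβ, ← hsig τ s hs, h2]
    have h5 := hχ1 s h3
    have h6 := hNfix s h5 (hb0 s h5 h4)
    ext x
    have h7 := h6 x x.2
    rw [hs x] at h7
    exact h7
  have hkum : ∀ τ : E ≃ₐ[ℚ] E, sigO τ ζE = ζE → ∃ j : ℕ, sigO τ βE = ζE ^ j * βE := by
    intro τ h1
    obtain ⟨s, hs⟩ := exists_lift E τ
    have h3 : s ζ = ζ := by rw [← hfζ, ← hsig τ s hs, h1]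
    refine ⟨(b s).val, hinj ?_⟩
    rw [hsig τ s hs, map_mul, map_pow, hfζ, hfβ, hβ s (hχ1 s h3)]
  have htype : ∀ (σ τ : E ≃ₐ[ℚ] E) (n : ℕ), sigO σ ζE = ζE ^ n → sigO τ ζE = ζE →
      τ (σ (βE : E) / (βE : E) ^ (n ^ 2)) = σ (βE : E) / (βE : E) ^ (n ^ 2) := by
    intro σ τ n h1 h2
    obtain ⟨s, hs⟩ := exists_lift E σ
    obtain ⟨t, ht⟩ := exists_lift E τ
    have h3 : s ζ = ζ ^ n := by rw [← hfζ, ← hsig σ s hs, h1, map_pow]
    have h4 : t ζ = ζ := by rw [← hfζ, ← hsig τ t ht, h2]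
    have h5 := hχ1 t h4
    have h6 := cycloChar_eq_of_apply p s ζ hζ n h3
    have h7 : cycloChar p (s⁻¹ * t * s) = 1 := by
      rw [map_mul, map_mul, h5, mul_one, map_inv, inv_mul_cancel]
    have h8 : t (s β) = ζ ^ ((b t).val * n ^ 2) * s β := by
      have h9 : t (s β) = s ((s⁻¹ * t * s) β) := by
        simp [AlgEquiv.mul_apply]
      rw [h9, hβ _ h7, map_mul, map_pow, h3, ← pow_mul, coc_conj b hcoc s t h5, h6]
      congr 1
      apply hpowcast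
      push_cast
      rw [ZMod.natCast_zmod_val, ZMod.natCast_zmod_val]
      ring
    apply Subtype.ext
    rw [← ht]
    have h10 : (((σ (βE : E) / (βE : E) ^ (n ^ 2) : E)) : Qbar) = s β / β ^ (n ^ 2) := by
      push_cast
      rw [← hs]
      rfl
    rw [h10, map_div₀, map_pow, h8, hβ t h5, mul_pow, ← pow_mul]
    have h11 : ζ ^ ((b t).val * n ^ 2) ≠ 0 := pow_ne_zero _ (hζ.ne_zero hp.ne_zero)
    rw [mul_div_mul_left _ _ h11]
  have hunr' : ∀ P : Ideal (𝓞 E), P.IsPrime → (p : 𝓞 E) ∉ P → ∀ τ : E ≃ₐ[ℚ] E,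
      (∀ x : 𝓞 E, sigO τ x - x ∈ P) → sigO τ βE = βE := by
    intro P hP hpP τ hτ
    by_cases hP0 : P = ⊥
    · have h1 := hτ βE
      rw [hP0, Ideal.mem_bot, sub_eq_zero] at h1
      exact h1
    obtain ⟨ℓ, hℓ, hℓP⟩ := exists_prime_mem P hP hP0
    have hℓp : ℓ ≠ p := by
      rintro rfl
      exact hpP hℓP
    obtain ⟨A, hA⟩ := exists_valuationSubring_over E P hP
    have hAℓ : A.LiesOverPrime ℓ := by
      have h1 := (hA (ℓ : 𝓞 E)).mp hℓP
      rw [← hf, map_natCast] at h1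
      exact h1
    obtain ⟨s, hsI, hs⟩ := lift_inertia E A τ (fun x => (hA (sigO τ x - x)).mp (hτ x))
    obtain ⟨h1, h2⟩ := hunr ℓ hℓ hℓp A hAℓ s hsI
    apply hinj
    rw [hsig τ s hs, hfβ]
    exact hNfix s h1 h2 β hβE
  have hsplit' : ∃ P : Ideal (𝓞 E), P.IsPrime ∧ (p : 𝓞 E) ∈ P ∧ ∀ τ : E ≃ₐ[ℚ] E,
      (∀ x : 𝓞 E, x ∈ P ↔ sigO τ x ∈ P) → sigO τ ζE = ζE → sigO τ βE = βE := by
    obtain ⟨A, hA⟩ := Fermat.Agent.Lib.FrobeniusExists.exists_liesOverPrime (L := Qbar) hp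
    have hfint : ∀ x : 𝓞 E, f x ∈ (integralClosure ℤ Qbar).toSubring := by
      intro x
      exact (RingOfIntegers.isIntegral_coe x).map (f := (algebraMap E Qbar).toIntAlgHom)
    let g : 𝓞 E →+* integralClosure ℤ Qbar := f.codRestrict (integralClosure ℤ Qbar).toSubring hfint
    let P : Ideal (𝓞 E) := (Fermat.Agent.S13.Mink.idealOf A).comap g
    have hPmem : ∀ x : 𝓞 E, x ∈ P ↔ f x ∈ A.nonunits := by
      intro x
      exact Fermat.Agent.Lib.FrobeniusExists.mem_comap_incl_iff A (g x)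
    refine ⟨P, Ideal.comap_isPrime _ _, ?_, ?_⟩
    · rw [hPmem, map_natCast]
      exact hA
    · intro τ hτ h1
      obtain ⟨s, hsD, hs⟩ := lift_decomposition E A τ (fun x => by
        have h2 := hτ x
        rw [hPmem, hPmem] at h2
        exact h2)
      have h3 : s ζ = ζ := by rw [← hfζ, ← hsig τ s hs, h1]
      have h4 := hχ1 s h3
      apply hinj
      rw [hsig τ s hs, hfβ]
      exact hNfix s h4 (hsplit A hA s hsD h4) β hβE
  have hmain := hfin E ζE βE hζE' hβE0 hfaith hkum htype hunr' hsplit'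
  obtain ⟨τ₀, hτ₀⟩ := exists_restrict E x₀
  have hτ₀' : ∀ x : E, x₀ (x : Qbar) = ((τ₀ x : E) : Qbar) := fun x => (hτ₀ x).symm
  have h1 := hmain τ₀ (hinj (by rw [hsig τ₀ x₀ hτ₀', hfζ]; exact hζfix x₀ hx₀))
  have h2 : x₀ β = β := by rw [← hfβ, ← hsig τ₀ x₀ hτ₀', h1]
  exact hbx₀ (hb0 x₀ hx₀ h2)

end Fermat.Agent.S14
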